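import Mathlib
import Fermat.Agent.A2.H733.IndexDegree

/-!
# Lib/KW piece DD (helper857): degree of the discriminant = codimension of the different

For a Dedekind domain `B`, finite and torsion-free over `k[X]` with separable fraction field
extension, and a `k[X]`-basis `b` of `B`:
`(Algebra.discr k[X] b).natDegree = dim_k (B ⧸ differentIdeal k[X] B)`.

Proof: `B ⧸ 𝔇 ≃ 𝔇⁻¹ ⧸ B` (`FractionalIdeal.quotientEquiv`), `𝔇⁻¹` is the trace dual of `B`, which
has the dual basis `b'` of `b`; the transition matrix from `b'` to `b` is the trace matrix, and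
the index lemma `A2.H733.finrank_quotient_eq_natDegree_det` computes the `k`-dimension of the
quotient as the degree of its determinant.
-/

set_option autoImplicit false

noncomputable section

namespace Fermat.Agent.Lib.KW.H857

open Polynomial Module nonZeroDivisors

attribute [local instance] FractionRing.liftAlgebra FractionRing.isScalarTower_liftAlgebra

section Abstract

variable {k : Type*} [Field k] {L : Type*} [AddCommGroup L] [Module k[X] L] [Module k L]
  [IsScalarTower k k[X] L]

/-- index lemma for two lattices `N ≤ M` inside an ambient module, each with a basis -/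
theorem finrank_quotient_comap_eq_natDegree_det {ι : Type*} [Fintype ι] [DecidableEq ι]
    (M N : Submodule k[X] L) (hNM : N ≤ M) (bM : Basis ι k[X] M) (bN : Basis ι k[X] N) :
    Module.finrank k (M ⧸ N.comap M.subtype) =
      (bM.det (fun i => (⟨(bN i : L), hNM (bN i).2⟩ : M))).natDegree := by
  let e : N ≃ₗ[k[X]] (N.comap M.subtype) := (Submodule.comapSubtypeEquivOfLe hNM).symm
  have h := Fermat.Agent.A2.H733.finrank_quotient_eq_natDegree_det bM (N.comap M.subtype)
    (bN.map e)
  rw [h]
  rfl

end Abstract

section RestrictScalars

variable {k : Type*} [Field k] {L : Type*} [AddCommGroup L] [Module k L]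
variable (R : Type*) [Ring R] [Module R L] [SMul k R] [IsScalarTower k R L]

/-- the `k`-dimension of a quotient of `R`-lattices only depends on the underlying sets -/
theorem finrank_quotient_restrictScalars (M N : Submodule R L) :
    Module.finrank k (M ⧸ N.comap M.subtype) =
      Module.finrank k ((M.restrictScalars k) ⧸
        (N.restrictScalars k).comap (M.restrictScalars k).subtype) := by
  let e0 : (M ⧸ N.comap M.subtype) ≃ₗ[k] (M ⧸ (N.comap M.subtype).restrictScalars k) :=
    (Submodule.Quotient.restrictScalarsEquiv k (N.comap M.subtype)).symm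
  rw [e0.finrank_eq]
  let f : M ≃ₗ[k] (M.restrictScalars k) :=
    (Submodule.restrictScalarsEquiv k R L M).symm.restrictScalars k
  exact LinearEquiv.finrank_eq (Submodule.Quotient.equiv _ _ f (by
    ext x
    simp only [Submodule.mem_map, Submodule.mem_comap, Submodule.restrictScalars_mem]
    constructor
    · rintro ⟨y, hy, rfl⟩
      exact hy
    · intro hx
      exact ⟨f.symm x, hx, by simp⟩))

/-- two pairs of lattices with the same underlying sets have the same quotient dimension -/
theorem finrank_quotient_eq_of_restrictScalars_eq (R' : Type*) [Ring R'] [Module R' L]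
    [SMul k R'] [IsScalarTower k R' L] (M N : Submodule R L) (M' N' : Submodule R' L)
    (hM : M.restrictScalars k = M'.restrictScalars k)
    (hN : N.restrictScalars k = N'.restrictScalars k) :
    Module.finrank k (M ⧸ N.comap M.subtype) = Module.finrank k (M' ⧸ N'.comap M'.subtype) := by
  rw [finrank_quotient_restrictScalars R M N, finrank_quotient_restrictScalars R' M' N', hM, hN]

end RestrictScalars

section Main

/-- `B ⧸ I ≃ (1 ⧸ I)` inside the fraction field, as a statement about `k`-dimensions. -/
theorem finrank_quotient_ideal_eq {k : Type*} [Field k] {B : Type*} [CommRing B] [IsDomain B]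
    [Algebra k B] (L : Type*) [Field L] [Algebra B L] [IsFractionRing B L]
    [Algebra k L] [IsScalarTower k B L] (I : Ideal B) :
    Module.finrank k (B ⧸ I) =
      Module.finrank k (((1 : FractionalIdeal B⁰ L) : Submodule B L) ⧸
        ((I : FractionalIdeal B⁰ L) : Submodule B L).comap
          ((1 : FractionalIdeal B⁰ L) : Submodule B L).subtype) := by
  have hinj : Function.Injective (Algebra.linearMap B L) :=
    FaithfulSMul.algebraMap_injective B L
  have hrange : LinearMap.range (Algebra.linearMap B L) =
      ((1 : FractionalIdeal B⁰ L) : Submodule B L) := by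
    rw [FractionalIdeal.coe_one, Submodule.one_eq_range]
  let e1 : B ≃ₗ[B] ((1 : FractionalIdeal B⁰ L) : Submodule B L) :=
    (LinearEquiv.ofInjective (Algebra.linearMap B L) hinj).trans (LinearEquiv.ofEq _ _ hrange)
  have he1 : ∀ x : B, ((e1 x : ((1 : FractionalIdeal B⁰ L) : Submodule B L)) : L)
      = algebraMap B L x := fun x => rfl
  let e : (B ⧸ I) ≃ₗ[B] (((1 : FractionalIdeal B⁰ L) : Submodule B L) ⧸
        ((I : FractionalIdeal B⁰ L) : Submodule B L).comap
          ((1 : FractionalIdeal B⁰ L) : Submodule B L).subtype) :=
    Submodule.Quotient.equiv I _ e1 (by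
      ext x
      simp only [Submodule.mem_map, Submodule.mem_comap, Submodule.subtype_apply,
        FractionalIdeal.mem_coe, FractionalIdeal.mem_coeIdeal]
      constructor
      · rintro ⟨y, hy, rfl⟩
        exact ⟨y, hy, (he1 y).symm⟩
      · rintro ⟨y, hy, hyx⟩
        exact ⟨y, hy, Subtype.ext ((he1 y).trans hyx)⟩)
  exact (e.restrictScalars k).finrank_eq

variable {k : Type*} [Field k] {B : Type*} [CommRing B] [IsDedekindDomain B]
    [Algebra k[X] B] [Algebra k B] [IsScalarTower k k[X] B]
    [Module.Finite k[X] B] [Module.IsTorsionFree k[X] B]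
    [Algebra.IsSeparable (FractionRing k[X]) (FractionRing B)]

/-- **DD**.  Degree of the discriminant = codimension of the different. -/
theorem natDegree_discr_eq_finrank_quotient
    {ι : Type*} [Fintype ι] [DecidableEq ι] (b : Module.Basis ι k[X] B) :
    (Algebra.discr k[X] b).natDegree = Module.finrank k (B ⧸ differentIdeal k[X] B) := by
  classical
  let K := FractionRing k[X]
  let L := FractionRing B
  -- the different and its inverse
  let I1 : FractionalIdeal B⁰ L := 1
  let ID : FractionalIdeal B⁰ L := (differentIdeal k[X] B : Ideal B)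
  let Idual : FractionalIdeal B⁰ L := FractionalIdeal.dual k[X] K (1 : FractionalIdeal B⁰ L)
  have hID : ID = Idual⁻¹ := coeIdeal_differentIdeal k[X] K L B
  have hdual_ne : Idual ≠ 0 := FractionalIdeal.dual_ne_zero k[X] K one_ne_zero
  have H : I1 * I1 = Idual * ID := by
    rw [hID, mul_inv_cancel₀ hdual_ne, mul_one]
  have h : ID ≤ I1 := FractionalIdeal.coeIdeal_le_one
  have h' : I1 ≤ Idual := FractionalIdeal.one_le_dual_one k[X] K
  let q := FractionalIdeal.quotientEquiv I1 ID Idual I1 H h h' one_ne_zero one_ne_zero
  -- bases
  let bL : Basis ι K L := b.localizationLocalization K k[X]⁰ L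
  let b' : Basis ι K L := bL.traceDual
  let M : Submodule k[X] L := Submodule.span k[X] (Set.range b')
  let N : Submodule k[X] L := Submodule.span k[X] (Set.range bL)
  have hN1 : (1 : Submodule B L).restrictScalars k[X] = N := by
    show _ = Submodule.span k[X] (Set.range bL)
    rw [Basis.localizationLocalization_span K k[X]⁰ L b]
    ext x
    simp only [Submodule.restrictScalars_mem, Submodule.mem_one, LinearMap.mem_range]
    exact Iff.rfl
  have hN : (I1 : Submodule B L).restrictScalars k[X] = N := by
    rw [← hN1, FractionalIdeal.coe_one]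
  have hM : (Idual : Submodule B L).restrictScalars k[X] = M := by
    show ((FractionalIdeal.dual k[X] K (1 : FractionalIdeal B⁰ L) : FractionalIdeal B⁰ L) :
      Submodule B L).restrictScalars k[X] = _
    rw [FractionalIdeal.coe_dual_one]
    exact Submodule.traceDual_span_of_basis k[X] (1 : Submodule B L) bL hN1
  have hNM : N ≤ M := by
    rw [← hN, ← hM]
    intro x hx
    exact h' hx
  have hliL : LinearIndependent k[X] (bL : ι → L) :=
    bL.linearIndependent.restrict_scalars' k[X]
  have hli' : LinearIndependent k[X] (b' : ι → L) :=
    b'.linearIndependent.restrict_scalars' k[X]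
  let bM : Basis ι k[X] M := Basis.span hli'
  let bN : Basis ι k[X] N := Basis.span hliL
  have h4 := finrank_quotient_comap_eq_natDegree_det M N hNM bM bN
  have hrepr : ∀ (x : M) (i : ι), b'.repr (x : L) i = algebraMap k[X] K (bM.repr x i) := by
    intro x i
    have hx : (x : L) = ∑ j, (algebraMap k[X] K (bM.repr x j)) • b' j := by
      conv_lhs => rw [← bM.sum_repr x]
      rw [Submodule.coe_sum]
      refine Finset.sum_congr rfl fun j _ => ?_
      rw [Submodule.coe_smul, Basis.span_apply, algebraMap_smul]
    conv_lhs => rw [hx]
    rw [map_sum, Finsupp.coe_finsetSum, Finset.sum_apply]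
    simp only [map_smul, Basis.repr_self, Finsupp.smul_apply, smul_eq_mul,
      Finsupp.single_apply, mul_ite, mul_one, mul_zero, Finset.sum_ite_eq', Finset.mem_univ,
      if_true]
  have hdet : bM.det (fun i => (⟨(bN i : L), hNM (bN i).2⟩ : M)) = Algebra.discr k[X] b := by
    rw [Basis.det_apply, Algebra.discr_def]
    congr 1
    refine Matrix.ext fun i j => ?_
    apply IsFractionRing.injective k[X] K
    rw [Basis.toMatrix_apply, ← hrepr]
    have e1 : (((⟨(bN j : L), hNM (bN j).2⟩ : M)) : L) = algebraMap B L (b j) := by
      exact (congrArg Subtype.val (Basis.span_apply hliL j)).trans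
        (Basis.localizationLocalization_apply K k[X]⁰ L b j)
    rw [e1, Basis.traceDual_repr_apply, Algebra.traceForm_apply,
      Basis.localizationLocalization_apply, ← map_mul,
      Algebra.trace_localization k[X] k[X]⁰, Algebra.traceMatrix_apply,
      Algebra.traceForm_apply, mul_comm]
  have h1 := finrank_quotient_ideal_eq (k := k) L (differentIdeal k[X] B)
  have h2 := (q.restrictScalars k).finrank_eq
  have h3 := finrank_quotient_eq_of_restrictScalars_eq (k := k) B k[X]
    (Idual : Submodule B L) (I1 : Submodule B L) M N (by rw [← hM]; rfl) (by rw [← hN]; rfl)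
  rw [h1, h2, h3, h4, hdet]

end Main

end Fermat.Agent.Lib.KW.H857
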